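/-
DS-T, cell [GV], leaf `gv_diamond`, ABSTRACT CORE (prefix `gvd_`): an automorphism of the function
field which preserves a chart ring with levels reduces to an automorphism of the reduced function
field.

`A` a valuation ring of `L`, `F ⊆ L((q))`, `Ft ⊆ k_A((q))`, `D : ge_ChartData A F Ft x` a chart datum
whose chart has levels (`D.chart.HasLevels`: the kernel of the reduction is generated, level by
level, by a uniformiser) and whose reduced chart ring has fraction field `Ft`.  If an `L`-algebra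
automorphism `δ` of `F` and its inverse preserve the chart ring `D.B`, then

* `δ` preserves the kernel of the reduction (`gvd_red_eq_zero`), hence induces a ring automorphism
  `gvd_barEquiv` of the reduced chart ring `rpz_D D.chart`, hence a `k_A`-algebra automorphism
  `gvd_deltaT` of `Ft` with `red (δ b) = gvd_deltaT (red b)` for `b ∈ D.B` (`gvd_deltaT_red`);
* **`gvd_core`** : for every `q`-integral function `y` (`dsr_IntFun`) of the chart ring, `δ y` is again
  a `q`-integral function of the chart ring and `red (δ y) = δt (red y)`.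
-/
import Mathlib
import Fermat.Agent.DS.GE.Final

set_option autoImplicit false
set_option linter.unusedSectionVars false
set_option linter.style.haveILetI false

namespace Fermat.Agent.DS

open AlgebraicCurve Polynomial ModularCurve Fermat.Agent.JT3 Fermat.Agent.S24

attribute [local instance] Fermat.Agent.DS.ge_instAlgSubring Fermat.Agent.DS.ge_instAlgFt
  Fermat.Agent.DS.ge_instAlgF
set_option synthInstance.maxHeartbeats 400000
set_option maxHeartbeats 1000000

noncomputable section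

section Core

variable {L : Type*} [Field L] {A : ValuationSubring L}
  {F : IntermediateField L (LaurentSeries L)}
  {Ft : IntermediateField (IsLocalRing.ResidueField A)
    (LaurentSeries (IsLocalRing.ResidueField A))}
  {x : ↥F} (D : ge_ChartData A F Ft x)

/-- the reduction of a constant of the maximal ideal is zero -/
theorem gvd_red_const_eq_zero {a : L} (ha : a ∈ A.nonunits) (ha' : a ∈ A) :
    D.chart.red ⟨algebraMap L ↥F a, D.chart.const_mem ⟨a, ha'⟩⟩ = 0 := by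
  have h1 := D.chart.red_const ⟨a, ha'⟩
  rw [h1]
  have h2 : D.chart.res ⟨a, ha'⟩ = 0 := by
    show IsLocalRing.residue A ⟨a, ha'⟩ = 0
    rw [IsLocalRing.residue_eq_zero_iff]
    obtain ⟨h3, h4⟩ := (ValuationSubring.mem_nonunits_iff_exists_mem_maximalIdeal).1 ha
    exact h4
  rw [h2, map_zero]

variable (hL : D.chart.HasLevels)

include hL in
/-- **the kernel of the reduction is stable** under every endomorphism over the constants which
preserves the chart ring -/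
theorem gvd_red_eq_zero (δ : ↥F →ₐ[L] ↥F) (hδ : ∀ b ∈ D.B, δ b ∈ D.B) (b : D.chart.B)
    (hb : D.chart.red b = 0) : D.chart.red ⟨δ b, hδ b b.2⟩ = 0 := by
  classical
  obtain ⟨Lv, hS, -⟩ := hL.refine {(b : ↥F)} ∅
    (by intro c hc; rw [Finset.mem_singleton] at hc; rw [hc]; exact b.2) (by simp)
  have hbl : (b : ↥F) ∈ Lv.Bl := hS _ (Finset.mem_singleton_self _)
  obtain ⟨b', hb'⟩ := Lv.red_ker ⟨b, hbl⟩ (by
    have : (⟨((⟨(b : ↥F), hbl⟩ : Lv.Bl) : ↥F), Lv.Bl_le hbl⟩ : D.chart.B) = b := Subtype.ext rfl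
    rw [this]; exact hb)
  have hϖA : Lv.ϖ ∈ A := Lv.O_le _ Lv.ϖ_mem
  have hδb : δ b = algebraMap L ↥F Lv.ϖ * δ (b' : ↥F) := by
    have h1 : (b : ↥F) = algebraMap L ↥F Lv.ϖ * (b' : ↥F) := hb'
    rw [h1, map_mul, AlgHom.commutes]
  have hmem : δ (b' : ↥F) ∈ D.B := hδ _ (Lv.Bl_le b'.2)
  have heq : (⟨δ b, hδ b b.2⟩ : D.chart.B) =
      ⟨algebraMap L ↥F Lv.ϖ, D.chart.const_mem ⟨Lv.ϖ, hϖA⟩⟩ * ⟨δ (b' : ↥F), hmem⟩ :=
    Subtype.ext hδb
  rw [heq, map_mul, gvd_red_const_eq_zero D Lv.ϖ_nonunit hϖA, zero_mul]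

/-- the restriction of `δ` to the chart ring -/
def gvd_resHom (δ : ↥F →ₐ[L] ↥F) (hδ : ∀ b ∈ D.B, δ b ∈ D.B) : D.chart.B →+* D.chart.B :=
  ((δ : ↥F →+* ↥F).comp D.chart.B.subtype).codRestrict D.chart.B (fun b => hδ b b.2)

theorem gvd_resHom_coe (δ : ↥F →ₐ[L] ↥F) (hδ : ∀ b ∈ D.B, δ b ∈ D.B) (b : D.chart.B) :
    ((gvd_resHom D δ hδ b : D.chart.B) : ↥F) = δ b := rfl

include hL in
theorem gvd_ker_le (δ : ↥F →ₐ[L] ↥F) (hδ : ∀ b ∈ D.B, δ b ∈ D.B) :
    RingHom.ker (rpz_rho D.chart) ≤ RingHom.ker ((rpz_rho D.chart).comp (gvd_resHom D δ hδ)) := by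
  intro b hb
  rw [RingHom.mem_ker] at hb ⊢
  have h1 : D.chart.red b = 0 := by
    rw [← rpz_rho_spec D.chart b, hb, map_zero]
  have h2 := gvd_red_eq_zero D hL δ hδ b h1
  apply Subtype.ext
  show D.chart.red (gvd_resHom D δ hδ b) = 0
  have : gvd_resHom D δ hδ b = ⟨δ b, hδ b b.2⟩ := Subtype.ext rfl
  rw [this]; exact h2

/-- the endomorphism of the reduced chart ring induced by `δ` -/
def gvd_barHom (δ : ↥F →ₐ[L] ↥F) (hδ : ∀ b ∈ D.B, δ b ∈ D.B) :
    ↥(rpz_D D.chart) →+* ↥(rpz_D D.chart) :=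
  (rpz_rho D.chart).liftOfSurjective (rpz_rho_surjective D.chart)
    ⟨(rpz_rho D.chart).comp (gvd_resHom D δ hδ), gvd_ker_le D hL δ hδ⟩

theorem gvd_barHom_rho (δ : ↥F →ₐ[L] ↥F) (hδ : ∀ b ∈ D.B, δ b ∈ D.B) (b : D.chart.B) :
    gvd_barHom D hL δ hδ (rpz_rho D.chart b) = rpz_rho D.chart (gvd_resHom D δ hδ b) :=
  RingHom.liftOfSurjective_comp_apply (rpz_rho D.chart) (rpz_rho_surjective D.chart)
    ⟨(rpz_rho D.chart).comp (gvd_resHom D δ hδ), gvd_ker_le D hL δ hδ⟩ b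

variable (δ : ↥F ≃ₐ[L] ↥F) (hδ : ∀ b ∈ D.B, δ b ∈ D.B) (hδ' : ∀ b ∈ D.B, δ.symm b ∈ D.B)

/-- the automorphism of the reduced chart ring induced by `δ` -/
def gvd_barEquiv : ↥(rpz_D D.chart) ≃+* ↥(rpz_D D.chart) :=
  RingEquiv.ofRingHom (gvd_barHom D hL (δ : ↥F →ₐ[L] ↥F) hδ)
    (gvd_barHom D hL (δ.symm : ↥F →ₐ[L] ↥F) hδ')
    (RingHom.ext fun y => by
      obtain ⟨b, rfl⟩ := rpz_rho_surjective D.chart y
      show gvd_barHom D hL (δ : ↥F →ₐ[L] ↥F) hδ
        (gvd_barHom D hL (δ.symm : ↥F →ₐ[L] ↥F) hδ' (rpz_rho D.chart b)) = rpz_rho D.chart b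
      refine (congrArg _ (gvd_barHom_rho D hL _ hδ' b)).trans ?_
      refine (gvd_barHom_rho D hL _ hδ _).trans ?_
      congr 1
      exact Subtype.ext (δ.apply_symm_apply (b : ↥F)))
    (RingHom.ext fun y => by
      obtain ⟨b, rfl⟩ := rpz_rho_surjective D.chart y
      show gvd_barHom D hL (δ.symm : ↥F →ₐ[L] ↥F) hδ'
        (gvd_barHom D hL (δ : ↥F →ₐ[L] ↥F) hδ (rpz_rho D.chart b)) = rpz_rho D.chart b
      refine (congrArg _ (gvd_barHom_rho D hL _ hδ b)).trans ?_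
      refine (gvd_barHom_rho D hL _ hδ' _).trans ?_
      congr 1
      exact Subtype.ext (δ.symm_apply_apply (b : ↥F)))

theorem gvd_barEquiv_rho (b : D.chart.B) :
    gvd_barEquiv D hL δ hδ hδ' (rpz_rho D.chart b) =
      rpz_rho D.chart (gvd_resHom D (δ : ↥F →ₐ[L] ↥F) hδ b) :=
  gvd_barHom_rho D hL (δ : ↥F →ₐ[L] ↥F) hδ b

variable [hfr : IsFractionRing ↥(rpz_D D.chart) ↥Ft]

/-- the ring automorphism of the reduced function field induced by `δ` -/
def gvd_deltaRing : ↥Ft ≃+* ↥Ft :=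
  IsFractionRing.ringEquivOfRingEquiv (K := ↥Ft) (L := ↥Ft) (gvd_barEquiv D hL δ hδ hδ')

theorem gvd_deltaRing_algebraMap (a : ↥(rpz_D D.chart)) :
    gvd_deltaRing D hL δ hδ hδ' (algebraMap ↥(rpz_D D.chart) ↥Ft a) =
      algebraMap ↥(rpz_D D.chart) ↥Ft (gvd_barEquiv D hL δ hδ hδ' a) :=
  IsFractionRing.ringEquivOfRingEquiv_algebraMap _ a

/-- **the reduction formula on the chart ring** -/
theorem gvd_deltaRing_red (b : D.chart.B) :
    gvd_deltaRing D hL δ hδ hδ' (D.chart.red b) = D.chart.red ⟨δ b, hδ b b.2⟩ := by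
  rw [← rpz_rho_spec D.chart b, gvd_deltaRing_algebraMap, gvd_barEquiv_rho, rpz_rho_spec]
  rfl

theorem gvd_deltaRing_const (c : IsLocalRing.ResidueField A) :
    gvd_deltaRing D hL δ hδ hδ' (algebraMap (IsLocalRing.ResidueField A) ↥Ft c) =
      algebraMap (IsLocalRing.ResidueField A) ↥Ft c := by
  obtain ⟨a, rfl⟩ := D.chart.res_surj c
  rw [← D.chart.red_const a, gvd_deltaRing_red]
  congr 1
  apply Subtype.ext
  exact δ.commutes (a : L)

/-- **the automorphism `δt` of the reduced function field** -/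
def gvd_deltaT : ↥Ft ≃ₐ[IsLocalRing.ResidueField A] ↥Ft :=
  AlgEquiv.ofRingEquiv (f := gvd_deltaRing D hL δ hδ hδ') (gvd_deltaRing_const D hL δ hδ hδ')

theorem gvd_deltaT_red (b : D.chart.B) :
    gvd_deltaT D hL δ hδ hδ' (D.chart.red b) = D.chart.red ⟨δ b, hδ b b.2⟩ :=
  gvd_deltaRing_red D hL δ hδ hδ' b

/-- the reduction of the chart is the reduction of `q`-expansions -/
theorem gvd_red_eq_dsr_red (y : dsr_IntFun A (IsLocalRing.residue A) F Ft)
    (h : dsr_gen y ∈ D.B) : D.chart.red ⟨dsr_gen y, h⟩ = dsr_red y := by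
  apply Subtype.ext
  rw [D.chart_red]
  exact ge_intRed_coe A (IsLocalRing.residue A) F Ft ⟨dsr_gen y, D.le_int h⟩ y.1 rfl

/-- **`gv_diamond`, abstract core**: `δ` maps the `q`-integral functions of the chart ring to
`q`-integral functions of the chart ring, and `red ∘ δ = δt ∘ red`. -/
theorem gvd_core (y : dsr_IntFun A (IsLocalRing.residue A) F Ft) (h : dsr_gen y ∈ D.B) :
    ∃ z : dsr_IntFun A (IsLocalRing.residue A) F Ft,
      dsr_gen z = δ (dsr_gen y) ∧ dsr_red z = gvd_deltaT D hL δ hδ hδ' (dsr_red y) ∧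
        dsr_gen z ∈ D.B := by
  have hmem : δ (dsr_gen y) ∈ D.B := hδ _ h
  obtain ⟨z₀, hz₀, hz₀k⟩ := D.le_int hmem
  have hred : D.chart.red ⟨δ (dsr_gen y), hmem⟩ =
      gvd_deltaT D hL δ hδ hδ' (dsr_red y) := by
    rw [← gvd_red_eq_dsr_red D y h, gvd_deltaT_red]
  have hcoe : ((D.chart.red ⟨δ (dsr_gen y), hmem⟩ : ↥Ft) :
      LaurentSeries (IsLocalRing.ResidueField A)) = coeffMap (IsLocalRing.residue A) z₀ := by
    rw [D.chart_red]
    exact ge_intRed_coe A (IsLocalRing.residue A) F Ft ⟨_, D.le_int hmem⟩ z₀ hz₀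
  have hne : coeffMap (IsLocalRing.residue A) z₀ ≠ 0 := by
    rw [← hcoe, hred]
    intro h0
    have h1 : gvd_deltaT D hL δ hδ hδ' (dsr_red y) = 0 := Subtype.ext h0
    rw [map_eq_zero_iff _ (gvd_deltaT D hL δ hδ hδ').injective] at h1
    exact dsr_red_ne_zero y h1
  have hF : coeffMap A.subtype z₀ ∈ F := by rw [hz₀]; exact (δ (dsr_gen y)).2
  refine ⟨⟨z₀, hF, hz₀k, hne⟩, Subtype.ext hz₀, ?_, ?_⟩
  · rw [← hred]
    exact Subtype.ext hcoe.symm
  · have : dsr_gen (⟨z₀, hF, hz₀k, hne⟩ : dsr_IntFun A (IsLocalRing.residue A) F Ft) =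
        δ (dsr_gen y) := Subtype.ext hz₀
    rw [this]; exact hmem

end Core

end

end Fermat.Agent.DS
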